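import Mathlib
import Fermat.Agent.S18.Alg.Spec

/-!
# S18 / MOD, G-FLD `finite` (helper458): generic part (Mathlib + `Alg/Spec.lean` only)

`Ω` a field, `Ec ≤ Lc` subfields with `Lc` algebraic over `Ec`, `x ∈ Ω`, `T ⊆ Ω` a finite set of
elements algebraic over `Lc(x) = Alg.ratField Lc x`.  Then the field `Fc := Ec(T)` (assumed to
contain `x`) is FINITE over `Ec(x)`, in the elementwise form of the field `finite` of
`Alg.GoodModel`:

    ∃ s : Finset Ω, ↑s ⊆ Fc ∧ ∀ f ∈ Fc, f ∈ Submodule.span (Alg.ratField Ec x) ↑s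

Main statement: `exists_finset_span_ratField`.
-/

set_option autoImplicit false

namespace Fermat.Agent.S18.Mod.H458

open Fermat.Agent.S18.Alg

variable {Ω : Type*} [Field Ω]

theorem ratField_mono {K₁ K₂ : Subfield Ω} (h : K₁ ≤ K₂) (x : Ω) :
    ratField K₁ x ≤ ratField K₂ x := by
  unfold ratField
  exact Subfield.closure_mono (Set.union_subset_union_left _ h)

theorem le_ratField (K : Subfield Ω) (x : Ω) : K ≤ ratField K x := fun _ ha =>
  Subfield.subset_closure (Or.inl ha)

theorem mem_ratField_self (K : Subfield Ω) (x : Ω) : x ∈ ratField K x :=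
  Subfield.subset_closure (Or.inr rfl)

theorem ratField_le_iff {K K' : Subfield Ω} {x : Ω} :
    ratField K x ≤ K' ↔ K ≤ K' ∧ x ∈ K' := by
  unfold ratField
  rw [Subfield.closure_le, Set.union_subset_iff, Set.singleton_subset_iff]
  rfl

/-- Algebraicity over a subfield passes to every larger subfield. -/
theorem isAlgebraic_of_subfield_le {K₁ K₂ : Subfield Ω} (h : K₁ ≤ K₂) {t : Ω}
    (ht : IsAlgebraic K₁ t) : IsAlgebraic K₂ t := by
  obtain ⟨p, hp0, hp⟩ := ht
  refine ⟨p.map (Subfield.inclusion h), ?_, ?_⟩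
  · exact (Polynomial.map_ne_zero_iff (Subfield.inclusion h).injective).2 hp0
  · rw [Polynomial.aeval_def, Polynomial.eval₂_map]
    rw [Polynomial.aeval_def] at hp
    exact hp

/-- Transitivity for subfields: `Lc` algebraic over `Ec` and `t` algebraic over `Lc(x)` imply
`t` algebraic over `Ec(x)`. -/
theorem isAlgebraic_ratField_of_isAlgebraic {Lc Ec : Subfield Ω} (hL : ∀ a ∈ Lc, IsAlgebraic Ec a)
    (x : Ω) {t : Ω} (ht : IsAlgebraic (ratField Lc x) t) : IsAlgebraic (ratField Ec x) t := by
  -- the intermediate field `K(Lc)` over `K := Ec(x)`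
  set K : Subfield Ω := ratField Ec x with hK
  let KL : IntermediateField K Ω := IntermediateField.adjoin K (Lc : Set Ω)
  have halg : Algebra.IsAlgebraic K KL :=
    IntermediateField.isAlgebraic_adjoin fun a ha =>
      (isAlgebraic_of_subfield_le (le_ratField Ec x) (hL a ha)).isIntegral
  -- `Lc(x) ≤ K(Lc)`
  have hle : ratField Lc x ≤ KL.toSubfield := by
    rw [ratField_le_iff]
    refine ⟨fun a ha => IntermediateField.subset_adjoin K _ ha, ?_⟩
    exact KL.algebraMap_mem ⟨x, mem_ratField_self Ec x⟩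
  have ht' : IsAlgebraic KL.toSubfield t := isAlgebraic_of_subfield_le hle ht
  have ht'' : IsAlgebraic KL t := by
    obtain ⟨p, hp0, hp⟩ := ht'
    exact ⟨p, hp0, hp⟩
  exact ht''.restrictScalars K

/-- **G-FLD `finite`, generic form.** -/
theorem exists_finset_span_ratField {Lc Ec : Subfield Ω}
    (hL : ∀ a ∈ Lc, IsAlgebraic Ec a) (x : Ω) (T : Set Ω) (hT : T.Finite)
    (hTalg : ∀ t ∈ T, IsAlgebraic (ratField Lc x) t)
    (hx : x ∈ Subfield.closure ((Ec : Set Ω) ∪ T)) :
    ∃ s : Finset Ω, (s : Set Ω) ⊆ (Subfield.closure ((Ec : Set Ω) ∪ T) : Subfield Ω) ∧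
      ∀ f ∈ (Subfield.closure ((Ec : Set Ω) ∪ T) : Subfield Ω),
        f ∈ Submodule.span (ratField Ec x) (s : Set Ω) := by
  classical
  set Fc : Subfield Ω := Subfield.closure ((Ec : Set Ω) ∪ T) with hFc
  set K : Subfield Ω := ratField Ec x with hK
  have hEF : Ec ≤ Fc := fun a ha => Subfield.subset_closure (Or.inl ha)
  have hTF : T ⊆ Fc := fun a ha => Subfield.subset_closure (Or.inr ha)
  have hKF : K ≤ Fc := ratField_le_iff.2 ⟨hEF, hx⟩
  let G : IntermediateField K Ω := IntermediateField.adjoin K T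
  have : Finite T := hT
  have hfin : FiniteDimensional K G :=
    IntermediateField.finiteDimensional_adjoin fun t ht =>
      (isAlgebraic_ratField_of_isAlgebraic hL x (hTalg t ht)).isIntegral
  -- `G = Fc` as sets
  have hGF : ∀ f, f ∈ G → f ∈ Fc := by
    let Fc' : IntermediateField K Ω := Fc.toIntermediateField fun k => hKF k.2
    have : G ≤ Fc' := IntermediateField.adjoin_le_iff.2 hTF
    exact fun f hf => this hf
  have hFG : ∀ f, f ∈ Fc → f ∈ G := by
    have : Fc ≤ G.toSubfield := by
      rw [hFc, Subfield.closure_le, Set.union_subset_iff]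
      refine ⟨fun a ha => ?_, fun a ha => IntermediateField.subset_adjoin K _ ha⟩
      exact G.algebraMap_mem ⟨a, le_ratField Ec x ha⟩
    exact fun f hf => this hf
  obtain ⟨s, hs⟩ := (Module.finite_def.1 hfin : (⊤ : Submodule K G).FG)
  refine ⟨s.image (fun g : G => (g : Ω)), ?_, ?_⟩
  · intro f hf
    rw [Finset.coe_image] at hf
    obtain ⟨g, -, rfl⟩ := hf
    exact hGF _ g.2
  · intro f hf
    have h1 : (⟨f, hFG f hf⟩ : G) ∈ Submodule.span K (s : Set G) := by
      rw [hs]; exact Submodule.mem_top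
    have h2 := Submodule.apply_mem_span_image_of_mem_span (G.val.toLinearMap) h1
    rw [Finset.coe_image]
    exact h2

end Fermat.Agent.S18.Mod.H458
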