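import Fermat.Agent.S18.Mod.Defs
import Fermat.Agent.S18.H65.ConstF
import Fermat.Agent.S18.Mod.H458.FldGeneric

/-!
# S18 / MOD, G-FLD field `finite` (helper458) for the concrete objects of `Mod/Defs.lean`

For EVERY intermediate field `E` of `Q̄/ℚ` and EVERY `x ∈ Fc M E` transcendental over `Q̄`
(in particular `x = j`, and the Hauptmodul coordinates `t₂`, `t₃`):

    field_finite M E x hxF hxt :
      ∃ s : Finset (Om M), ↑s ⊆ Fc M E ∧ ∀ f ∈ Fc M E, f ∈ Submodule.span (Alg.ratField (Ec M E) x) ↑s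

which is EXACTLY the field `finite` of `Alg.GoodModel (Lc M) (Ec M E) (Fc M E) R V w x S`.
Inputs: landed `S18/H65/ConstF.lean` (`finiteDimensional_jF`, `transcendental_jF`) and the landed
S24 exchange lemma `FF.finiteDimensional_adjoin_of_transcendental`.
-/

set_option autoImplicit false

noncomputable section

namespace Fermat.Agent.S18.Mod.H458

open ModularCurve AlgebraicCurve HahnSeries IntermediateField
open Fermat.Agent.S18 Fermat.Agent.S18.Mod Fermat.Agent.S18.Alg

variable (M : ℕ)

/-- The generators `j(q^d)`, `d ∣ M`, form a finite set. -/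
theorem gens_finite [NeZero M] : (gens M).Finite := by
  classical
  have hsub : gens M ⊆ Set.range (fun d : Fin (M + 1) =>
      if h : (d : ℕ) ≠ 0 ∧ (d : ℕ) ∣ M then
        (haveI : NeZero (d : ℕ) := ⟨h.1⟩; jd M (d : ℕ) h.2) else 0) := by
    rintro y ⟨d, hd0, hd, rfl⟩
    have hle : d ≤ M := Nat.le_of_dvd (Nat.pos_of_ne_zero (NeZero.ne M)) hd
    refine ⟨⟨d, Nat.lt_succ_of_le hle⟩, ?_⟩
    simp only
    rw [dif_pos ⟨NeZero.ne d, hd⟩]
  exact (Set.finite_range _).subset hsub

/-- `Lc(x)` is the underlying subfield of the intermediate field `Q̄⟮x⟯`. -/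
theorem adjoin_toSubfield_eq_ratField (x : Om M) :
    (Qb⟮x⟯ : IntermediateField Qb (Om M)).toSubfield = ratField (Lc M) x := by
  rw [IntermediateField.adjoin_toSubfield]
  rfl

/-- The isomorphism `Q̄ → Lc M`, as a ring homomorphism. -/
def toLc : Qb →+* Lc M := (algebraMap Qb (Om M)).codRestrict (Lc M) fun c => ⟨c, rfl⟩

theorem toLc_injective : Function.Injective (toLc M) := (toLc M).injective

theorem toLc_surjective : Function.Surjective (toLc M) := by
  rintro ⟨y, c, hc⟩
  exact ⟨c, Subtype.ext hc⟩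

theorem toLc_comp :
    (algebraMap (Lc M) (Om M)).comp (toLc M) = (RingHom.id (Om M)).comp (algebraMap Qb (Om M)) :=
  RingHom.ext fun _ => rfl

/-- `Transcendental (Lc M) x` implies `Transcendental Q̄ x`. -/
theorem transcendental_Qb_of_Lc {x : Om M} (hx : Transcendental (Lc M) x) :
    Transcendental Qb x :=
  Transcendental.of_ringHom_of_comp_eq (f := toLc M) (g := RingHom.id (Om M)) hx
    (toLc_injective M) (toLc_comp M)

/-- `Transcendental Q̄ x` implies `Transcendental (Lc M) x`. -/
theorem transcendental_Lc_of_Qb {x : Om M} (hx : Transcendental Qb x) :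
    Transcendental (Lc M) x :=
  Transcendental.ringHom_of_comp_eq (f := toLc M) (g := RingHom.id (Om M)) hx
    (toLc_surjective M) (RingHom.id (Om M)).injective (toLc_comp M)

/-- Every element of `Ω = F_M` is algebraic over `Lc(x)`, for `x` transcendental over `Q̄`. -/
theorem isAlgebraic_ratField_Lc [NeZero M] {x : Om M} (hx : Transcendental Qb x) (t : Om M) :
    IsAlgebraic (ratField (Lc M) x) t := by
  have := H65.finiteDimensional_jF M
  have : FiniteDimensional Qb⟮x⟯ (Om M) :=
    Fermat.Agent.S24.FF.finiteDimensional_adjoin_of_transcendental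
      (H65.transcendental_jF M) hx
  have halg : Algebra.IsAlgebraic Qb⟮x⟯ (Om M) := Algebra.IsAlgebraic.of_finite _ _
  have h1 : IsAlgebraic Qb⟮x⟯ t := halg.isAlgebraic t
  have h2 : IsAlgebraic (Qb⟮x⟯ : IntermediateField Qb (Om M)).toSubfield t := by
    obtain ⟨p, hp0, hp⟩ := h1
    exact ⟨p, hp0, hp⟩
  exact isAlgebraic_of_subfield_le (adjoin_toSubfield_eq_ratField M x).le h2

variable (E : IntermediateField ℚ Qb)

/-- `Lc` is algebraic over `Ec`. -/
theorem isAlgebraic_Lc_over_Ec : ∀ a ∈ Lc M, IsAlgebraic (Ec M E) a := by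
  rintro a ⟨c, rfl⟩
  have hc : IsAlgebraic ℚ c := (AlgebraicClosure.isAlgebraic ℚ).isAlgebraic c
  obtain ⟨p, hp0, hp⟩ := hc
  -- the ring hom `ℚ → Ec`
  let φ : ℚ →+* Ec M E := algebraMap ℚ (Ec M E)
  refine ⟨p.map φ, (Polynomial.map_ne_zero_iff φ.injective).2 hp0, ?_⟩
  rw [Polynomial.aeval_def, Polynomial.eval₂_map]
  have hcomp : (algebraMap (Ec M E) (Om M)).comp φ =
      (algebraMap Qb (Om M)).comp (algebraMap ℚ Qb) := RingHom.ext_rat _ _
  rw [hcomp, ← Polynomial.hom_eval₂, ← Polynomial.aeval_def, hp, map_zero]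

/-- **G-FLD, field `finite`** of `Alg.GoodModel` at the concrete objects, for every coordinate
`x ∈ Fc M E` transcendental over the constants. -/
theorem field_finite [NeZero M] (x : Om M) (hxF : x ∈ Fc M E) (hxt : Transcendental (Lc M) x) :
    ∃ s : Finset (Om M), (s : Set (Om M)) ⊆ Fc M E ∧
      ∀ f ∈ Fc M E, f ∈ Submodule.span (ratField (Ec M E) x) (s : Set (Om M)) :=
  exists_finset_span_ratField (isAlgebraic_Lc_over_Ec M E) x (gens M) (gens_finite M)
    (fun t _ => isAlgebraic_ratField_Lc M (transcendental_Qb_of_Lc M hxt) t) hxF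

/-- `j ∈ Fc M E`. -/
theorem jOm_mem_Fc [NeZero M] : jOm M ∈ Fc M E :=
  Subfield.subset_closure (Or.inr ⟨1, inferInstance, one_dvd M, rfl⟩)

/-- `jOm M` is the `j`-function `S24.jF M`. -/
theorem jOm_eq_jF' [NeZero M] : jOm M = Fermat.Agent.S24.jF M := by
  apply Subtype.ext
  show coeffEmb Qb (qExpand ℚ 1 jq) = coeffEmb Qb jq
  rw [qExpand_one_apply]

/-- `j` is transcendental over `Lc`. -/
theorem transcendental_jOm [NeZero M] : Transcendental (Lc M) (jOm M) := by
  apply transcendental_Lc_of_Qb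
  rw [jOm_eq_jF']
  exact H65.transcendental_jF M

/-- **G-FLD, field `finite`** for the coordinate `x = j`. -/
theorem field_finite_jOm [NeZero M] :
    ∃ s : Finset (Om M), (s : Set (Om M)) ⊆ Fc M E ∧
      ∀ f ∈ Fc M E, f ∈ Submodule.span (ratField (Ec M E) (jOm M)) (s : Set (Om M)) :=
  field_finite M E (jOm M) (jOm_mem_Fc M E) (transcendental_jOm M)

end Fermat.Agent.S18.Mod.H458
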